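/-
T1B / EMBED44, Kummer half (helper6), part 1: **descent of an eigenvector from a field of
characteristic `p` to the prime field** (Mathlib only).

`M` finite free over `ℤ`, `κ` a field of characteristic `p`, `w ≠ 0` in `κ ⊗ M`.  There is `y ∈ M`,
`y ∉ pM`, such that every integral relation `E w = 0` (`E ∈ End_ℤ M`) descends to `E y ∈ pM`.
-/
import Mathlib

set_option autoImplicit false
set_option linter.style.haveILetI false

noncomputable section

namespace Fermat.Agent.T1B.Embed6

open TensorProduct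

section Descend

variable {M : Type*} [AddCommGroup M]

/-- `λ ⊗ id : κ ⊗ M → 𝔽 ⊗ M` for an additive `λ`. -/
def rT {κ F : Type*} [CommRing κ] [CommRing F] (lam : κ →+ F) : κ ⊗[ℤ] M →ₗ[ℤ] F ⊗[ℤ] M :=
  LinearMap.rTensor M lam.toIntLinearMap

theorem rT_tmul {κ F : Type*} [CommRing κ] [CommRing F] (lam : κ →+ F) (a : κ) (m : M) :
    rT lam (a ⊗ₜ[ℤ] m) = lam a ⊗ₜ[ℤ] m := rfl

/-- `λ ⊗ id` commutes with `id ⊗ E`. -/
theorem rT_baseChange {κ F : Type*} [CommRing κ] [CommRing F] (lam : κ →+ F) (E : Module.End ℤ M)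
    (w : κ ⊗[ℤ] M) : rT lam (E.baseChange κ w) = E.baseChange F (rT lam w) := by
  induction w using TensorProduct.induction_on with
  | zero => simp
  | tmul a m => rw [LinearMap.baseChange_tmul, rT_tmul, rT_tmul, LinearMap.baseChange_tmul]
  | add x y hx hy => rw [map_add, map_add, hx, hy, map_add, map_add]

/-- every element of `(ZMod p) ⊗ M` is `1 ⊗ y`. -/
theorem exists_one_tmul (p : ℕ) [NeZero p] (t : ZMod p ⊗[ℤ] M) : ∃ y : M, t = 1 ⊗ₜ[ℤ] y := by
  induction t using TensorProduct.induction_on with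
  | zero => exact ⟨0, by rw [tmul_zero]⟩
  | tmul a m =>
    obtain ⟨n, rfl⟩ := ZMod.intCast_surjective a
    refine ⟨n • m, ?_⟩
    rw [← smul_tmul, zsmul_eq_mul, mul_one]
  | add x y hx hy =>
    obtain ⟨a, rfl⟩ := hx
    obtain ⟨b, rfl⟩ := hy
    exact ⟨a + b, by rw [tmul_add]⟩

theorem one_tmul_nsmul (p : ℕ) (z : M) : (1 : ZMod p) ⊗ₜ[ℤ] (p • z) = 0 := by
  rw [← natCast_zsmul, ← smul_tmul, zsmul_eq_mul, mul_one, Int.cast_natCast, ZMod.natCast_self,
    zero_tmul]

variable [Module.Free ℤ M] [Module.Finite ℤ M]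

/-- the kernel of `y ↦ 1 ⊗ y : M → (ZMod p) ⊗ M` is `pM`. -/
theorem exists_nsmul_of_one_tmul_eq_zero (p : ℕ) [NeZero p] (y : M)
    (h : (1 : ZMod p) ⊗ₜ[ℤ] y = 0) : ∃ z : M, y = p • z := by
  classical
  let b := Module.Free.chooseBasis ℤ M
  let B := Algebra.TensorProduct.basis (ZMod p) b
  have h1 : ∀ i, ((b.repr y i : ℤ) : ZMod p) = 0 := by
    intro i
    have h2 := congrArg (fun t => B.repr t i) h
    simp only [B, Algebra.TensorProduct.basis_repr_tmul, map_zero, Finsupp.coe_zero,
      Pi.zero_apply, one_smul, Finsupp.mapRange_apply] at h2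
    simpa using h2
  have h3 : ∀ i, (p : ℤ) ∣ b.repr y i := fun i => (ZMod.intCast_zmod_eq_zero_iff_dvd _ p).mp (h1 i)
  choose c hc using h3
  refine ⟨∑ i, c i • b i, ?_⟩
  rw [Finset.smul_sum]
  conv_lhs => rw [← b.sum_repr y]
  refine Finset.sum_congr rfl fun i _ => ?_
  rw [hc i, mul_smul, natCast_zsmul]

/-- some additive functional does not kill `w`. -/
theorem exists_rT_ne_zero (p : ℕ) [Fact p.Prime] {κ : Type*} [Field κ] [CharP κ p]
    (w : κ ⊗[ℤ] M) (hw : w ≠ 0) : ∃ lam : κ →+ ZMod p, rT lam w ≠ 0 := by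
  classical
  letI : Algebra (ZMod p) κ := ZMod.algebra κ p
  let b := Module.Free.chooseBasis ℤ M
  let B := Algebra.TensorProduct.basis κ b
  let B' := Algebra.TensorProduct.basis (ZMod p) b
  obtain ⟨i0, hi0⟩ : ∃ i, B.repr w i ≠ 0 := by
    by_contra hne
    apply hw
    apply B.repr.injective
    ext i
    rw [map_zero, Finsupp.coe_zero, Pi.zero_apply]
    by_contra hi
    exact hne ⟨i, hi⟩
  obtain ⟨φ, hφ⟩ : ∃ φ : Module.Dual (ZMod p) κ, φ (B.repr w i0) ≠ 0 := by
    by_contra h
    have h' : ∀ φ : Module.Dual (ZMod p) κ, φ (B.repr w i0) = 0 := by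
      intro φ
      by_contra hne
      exact h ⟨φ, hne⟩
    exact hi0 ((Module.forall_dual_apply_eq_zero_iff (ZMod p) _).mp h')
  refine ⟨φ.toAddMonoidHom, fun h0 => hφ ?_⟩
  -- the `i0`-th coordinate of `rT φ w` is `φ (coordinate of w)`
  have key : ∀ t : κ ⊗[ℤ] M, B'.repr (rT φ.toAddMonoidHom t) i0 = φ (B.repr t i0) := by
    intro t
    induction t using TensorProduct.induction_on with
    | zero => simp
    | tmul a m =>
      rw [rT_tmul]
      simp only [B, B', Algebra.TensorProduct.basis_repr_tmul, Finsupp.smul_apply,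
        Finsupp.mapRange_apply, smul_eq_mul]
      show φ a * _ = φ (a * _)
      rw [eq_intCast, eq_intCast, mul_comm a, ← zsmul_eq_mul, map_zsmul φ, zsmul_eq_mul, mul_comm]
    | add x y hx hy => rw [map_add, map_add, Finsupp.add_apply, hx, hy, map_add, Finsupp.add_apply,
        map_add]
  rw [← key, h0, map_zero, Finsupp.coe_zero, Pi.zero_apply]

/-- **descent to the prime field.** -/
theorem exists_descent (p : ℕ) [Fact p.Prime] {κ : Type*} [Field κ] [CharP κ p]
    (w : κ ⊗[ℤ] M) (hw : w ≠ 0) :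
    ∃ y : M, (¬ ∃ z : M, y = p • z) ∧
      ∀ E : Module.End ℤ M, E.baseChange κ w = 0 → ∃ z : M, E y = p • z := by
  haveI : NeZero p := ⟨(Fact.out : p.Prime).ne_zero⟩
  obtain ⟨lam, hlam⟩ := exists_rT_ne_zero p w hw
  obtain ⟨y, hy⟩ := exists_one_tmul p (rT lam w)
  refine ⟨y, ?_, fun E hE => ?_⟩
  · rintro ⟨z, rfl⟩
    exact hlam (by rw [hy, one_tmul_nsmul])
  · apply exists_nsmul_of_one_tmul_eq_zero p
    have := rT_baseChange lam E w
    rw [hE, map_zero, hy, LinearMap.baseChange_tmul] at this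
    exact this.symm

end Descend

/-! ### base change of polynomial relations -/

section Relations

variable {M : Type*} [AddCommGroup M]

theorem baseChange_sub_zsmul {κ : Type*} [CommRing κ] (T : Module.End ℤ M) (a : ℤ)
    (w : κ ⊗[ℤ] M) : (T - a • (1 : Module.End ℤ M)).baseChange κ w = T.baseChange κ w - (a : κ) • w := by
  rw [LinearMap.baseChange_sub, LinearMap.baseChange_smul, Module.End.one_eq_id,
    LinearMap.baseChange_id, LinearMap.sub_apply, LinearMap.smul_apply, LinearMap.id_apply,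
    Int.cast_smul_eq_zsmul]

/-- an eigenvector of `T ⊗ κ` is an eigenvector of `c(T) ⊗ κ`. -/
theorem baseChange_aeval_of_eigen {κ : Type*} [CommRing κ] (T : Module.End ℤ M) (μ : κ)
    (w : κ ⊗[ℤ] M) (h : T.baseChange κ w = μ • w) (c : Polynomial ℤ) :
    (Polynomial.aeval T c).baseChange κ w = Polynomial.aeval μ c • w := by
  induction c using Polynomial.induction_on with
  | C n =>
    rw [Polynomial.aeval_C, Polynomial.aeval_C, Algebra.algebraMap_eq_smul_one,
      LinearMap.baseChange_smul, Module.End.one_eq_id, LinearMap.baseChange_id,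
      LinearMap.smul_apply, LinearMap.id_apply, eq_intCast, Int.cast_smul_eq_zsmul]
  | add c d hc hd => rw [map_add, map_add, LinearMap.baseChange_add, LinearMap.add_apply, hc, hd,
      add_smul]
  | monomial n r ih =>
    rw [pow_succ, ← mul_assoc, map_mul (Polynomial.aeval T), map_mul (Polynomial.aeval μ),
      Polynomial.aeval_X, Polynomial.aeval_X,
      Module.End.mul_eq_comp, LinearMap.baseChange_comp, LinearMap.comp_apply, h, map_smul, ih,
      smul_smul, mul_comm]

/-- polynomials in intertwined operators are intertwined. -/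
theorem aeval_intertwine {A B : Type*} [AddCommGroup A] [AddCommGroup B] (π : A →+ B)
    (f : Module.End ℤ A) (g : Module.End ℤ B) (h : ∀ a, g (π a) = π (f a)) (c : Polynomial ℤ)
    (a : A) : Polynomial.aeval g c (π a) = π (Polynomial.aeval f c a) := by
  induction c using Polynomial.induction_on generalizing a with
  | C n =>
    rw [Polynomial.aeval_C, Polynomial.aeval_C, Algebra.algebraMap_eq_smul_one,
      Algebra.algebraMap_eq_smul_one, LinearMap.smul_apply, LinearMap.smul_apply,
      Module.End.one_apply, Module.End.one_apply, map_zsmul]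
  | add c d hc hd => rw [map_add, map_add, LinearMap.add_apply, LinearMap.add_apply, hc, hd, map_add]
  | monomial n r ih =>
    rw [pow_succ, ← mul_assoc, map_mul (Polynomial.aeval g), map_mul (Polynomial.aeval f),
      Polynomial.aeval_X, Polynomial.aeval_X,
      Module.End.mul_apply, Module.End.mul_apply, h, ih]

end Relations

end Fermat.Agent.T1B.Embed6
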