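/-
T1B / EMBED44, Kummer half (helper6), part 2: **the occurrence subgroup of `J₀(L)(ℚ̄)[p]` attached to
a normalised eigenform of level `L` is nonzero.**

`L` any level with `2 ∣ L`, `p` ANY prime (`p ∣ L` allowed: EMBED44 needs `L = 4mp`), `U` any family
of `U_2`-operators on the `J₀(N')(ℚ̄)` whose member at level `L` corresponds to the classical `U_2`
on characters (`Lift69.UqTate.UqX`, cocycle `UqOp28.cocU`) under the Kummer maps
(`KumCompatAt U L p`; this is verbatim helper7's `Lift7.KumUq U` at `(L, p)` = helper78's brick (cl)).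

* `redPi KS : Λ →+ J`, `φ ↦` the level-one component of `ι₀ φ ∈ T_p J`; kernel `pΛ`;
* `exists_occSub_ne_zero` : for a normalised eigenform `f` of level `L`, a maximal ideal `𝔪 ∋ p` of
  `ℤ̄`, integers `a ℓ ≡ a_ℓ(f) mod 𝔪` (`good ℓ`), `α = a_2(f)`: there is `x ≠ 0` in
  `OccSub U L p good a {c | c(α) ∈ 𝔪}`;
* `exists_occSub_frey` : the same in the literal shape of `Top68.EMBED44`.

Route: eigenvector of the FULL Hecke algebra in `ℂ ⊗ Λ` (`FaithFull19` + `EigenExists10`), reduction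
along a valuation ring dominating `(ℤ̄, 𝔪)` (`Occur16.exists_reduction`), descent to `𝔽_p`
(`Embed6/Descend`), then `Λ/pΛ ↪ J[p]` through the Kummer system.
-/
import Mathlib
import Fermat.Agent.ES.LR.Occur16
import Fermat.Agent.ES.S16.FaithFull19
import Fermat.Agent.ES.J.KummerSystemFinal18
import Fermat.Agent.T1B.Lift69.UqTate
import Fermat.Agent.T1B.Top68.Global
import Fermat.Agent.T1B.Embed6.Descend

set_option autoImplicit false
set_option linter.style.haveILetI false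
set_option linter.unusedSectionVars false

noncomputable section

namespace Fermat.Agent.T1B.Embed6

open CongruenceSubgroup CuspForm ModularCurve ModularCurve.Period TensorProduct ModularFormClass
open Fermat.Agent.ES.J.TateModule13 Fermat.Agent.ES.J.TateChar11 Fermat.Agent.ES.J.TateCompare11
open Fermat.Agent.ES.HEQ.ParLattice11 Fermat.Agent.ES.HEQ.DoubleCosetPar27
open Fermat.Agent.ES.HEQ.DoubleCoset27
open Fermat.Agent.ES.LR.UqOp28 Fermat.Agent.T1B.Lift69.UqTate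
open Fermat.Agent.ES.J.KummerSystemFinal18 Fermat.Agent.ES.J.K2Final11
open Fermat.Agent.ES.HEQ.FaithInst26 Fermat.Agent.ES.HEQ.FaithFinal26
open Fermat.Agent.ES.S16.FaithFull19 Fermat.Agent.T1B.Top68
open scoped MatrixGroups

/-! ### the reduction `Λ → J[p]` of the comparison map -/

section Pi

variable {p : ℕ} [hp : Fact p.Prime] {Γ : Subgroup SL(2, ℤ)} {J : Type*} [AddCommGroup J]
  (KS : KummerSystem p Γ J)

/-- reduction mod `p` of the comparison map: `Λ → J[p]`. -/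
def redPi : ↥(parabolicHoms ℤ Γ ℤ) →+ J :=
  (proj 1).comp (iota KS).toAddMonoidHom

theorem redPi_apply (φ : ↥(parabolicHoms ℤ Γ ℤ)) : redPi KS φ = proj 1 (iota KS φ) := rfl

theorem nsmul_redPi (φ : ↥(parabolicHoms ℤ Γ ℤ)) : p • redPi KS φ = 0 := by
  have := pow_smul_proj 1 (iota KS φ)
  rwa [pow_one] at this

omit hp in
/-- a parabolic homomorphism with values in `pℤ` is `p` times a parabolic homomorphism. -/
theorem exists_nsmul_of_forall_dvd (hp0 : p ≠ 0) (φ : ↥(parabolicHoms ℤ Γ ℤ))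
    (h : ∀ γ : Additive Γ, (p : ℤ) ∣ (φ : Additive Γ →+ ℤ) γ) :
    ∃ z : ↥(parabolicHoms ℤ Γ ℤ), φ = p • z := by
  choose c hc using h
  have hp0' : (p : ℤ) ≠ 0 := by exact_mod_cast hp0
  let z : Additive Γ →+ ℤ :=
    { toFun := c
      map_zero' := by
        have := hc 0
        rw [map_zero] at this
        exact (mul_eq_zero.mp this.symm).resolve_left hp0'
      map_add' := fun a b => by
        apply mul_left_cancel₀ hp0'
        rw [mul_add, ← hc, ← hc, ← hc, map_add] }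
  have hz : z ∈ parabolicHoms ℤ Γ ℤ := by
    intro γ hγ
    have h1 := hc (Additive.ofMul γ)
    rw [φ.2 γ hγ] at h1
    exact (mul_eq_zero.mp h1.symm).resolve_left hp0'
  refine ⟨⟨z, hz⟩, Subtype.ext (AddMonoidHom.ext fun γ => ?_)⟩
  show (φ : Additive Γ →+ ℤ) γ = p • c γ
  rw [hc γ, nsmul_eq_mul]

/-- **the kernel of `redPi` is `pΛ`.** -/
theorem exists_nsmul_of_redPi_eq_zero (φ : ↥(parabolicHoms ℤ Γ ℤ)) (h : redPi KS φ = 0) :
    ∃ z : ↥(parabolicHoms ℤ Γ ℤ), φ = p • z := by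
  apply exists_nsmul_of_forall_dvd hp.out.ne_zero
  intro γ
  obtain ⟨t, ht⟩ := (proj_eq_zero_iff 1 (iota KS φ)).mp h
  have h1 := congrArg KS.tateEquiv ht
  rw [tateEquiv_iota, map_smul] at h1
  have h2 : (((φ : Additive Γ →+ ℤ) γ : ℤ) : ℤ_[p]) =
      ((p ^ 1 : ℕ) : ℤ_[p]) * ((KS.tateEquiv t : ↥(parabolicHoms ℤ_[p] Γ ℤ_[p])) :
        Additive Γ →+ ℤ_[p]) γ := by
    rw [← castPar_apply (R := ℤ_[p]) φ γ, h1]
    rfl
  have h3 := congrArg (PadicInt.toZMod (p := p)) h2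
  rw [map_intCast, map_mul, map_natCast, pow_one, ZMod.natCast_self, zero_mul] at h3
  exact (ZMod.intCast_zmod_eq_zero_iff_dvd _ p).mp h3

end Pi

/-! ### Hecke equivariance of `redPi` on `J₀(L)` -/

section Hecke

variable (p : ℕ) [hp : Fact p.Prime] (L : ℕ) [NeZero L]

/-- the member at level `L` of the family `U` corresponds to the classical `U_2` on characters under
the Kummer maps of `J₀(L)(ℚ̄)` at `p` (helper7's `Lift7.KumUq U` at `(L, p)`). -/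
def KumCompatAt (U : UFamily) (h2L : 2 ∣ L) : Prop :=
  ∀ (k : ℕ) (x : ↥(tors (JZero L) (p ^ k)))
    (hfx : U L (x : JZero L) ∈ tors (JZero L) (p ^ k)),
    (kummerSystemJ p L).κ k ⟨U L (x : JZero L), hfx⟩ =
      UqX (q := 2) h2L ((kummerSystemJ p L).κ k x)

/-- `Λ → J₀(L)(ℚ̄)[p]`. -/
def piJ : ↥(Lam L) →+ JZero L := redPi (kummerSystemJ p L)

theorem nsmul_piJ (φ : ↥(Lam L)) : p • piJ p L φ = 0 := nsmul_redPi _ φ

theorem piJ_ker (φ : ↥(Lam L)) (h : piJ p L φ = 0) : ∃ z : ↥(Lam L), φ = p • z :=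
  exists_nsmul_of_redPi_eq_zero _ φ h

/-- `T_ℓ ∘ π = π ∘ T_ℓ^dc`, `ℓ ∤ L`. -/
theorem heckeOperatorBar_piJ (ℓ : ℕ) (hℓ : ℓ.Prime) (hℓL : ¬ ℓ ∣ L) (φ : ↥(Lam L)) :
    heckeOperatorBar L ⟨ℓ, hℓ⟩ (piJ p L φ) = piJ p L (dcZ L ℓ hℓ hℓL φ) := by
  haveI : Fact ℓ.Prime := ⟨hℓ⟩
  have h := map_iota hℓL (kummerSystemJ p L) (heckeOperatorBar L ⟨ℓ, hℓ⟩).toAddMonoidHom
    (fun k y hfy => heckeCompatJ p L ℓ hℓ hℓL k y hfy) φ
  have h1 := congrArg (proj 1) h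
  rw [proj_map] at h1
  exact h1

/-- `U_2 ∘ π = π ∘ U_2`. -/
theorem U_piJ (U : UFamily) (h2L : 2 ∣ L) (hU : KumCompatAt p L U h2L) (φ : ↥(Lam L)) :
    U L (piJ p L φ) = piJ p L (UqPar (q := 2) h2L ℤ ℤ φ) := by
  have h := map_iota_Uq (q := 2) h2L (kummerSystemJ p L) (U L).toAddMonoidHom hU φ
  have h1 := congrArg (proj 1) h
  rw [proj_map] at h1
  exact h1

end Hecke

/-! ### the occurrence -/

section Occurrence

open Fermat.Agent.ES.LR.Occur16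

variable {p : ℕ} [hp : Fact p.Prime] {L : ℕ} [NeZero L]

/-- **a nonzero vector of `κ ⊗ Λ`, `κ` a field of characteristic `p`, carrying the eigensystem of `f`
modulo `𝔪`** (full Hecke algebra: all `T_ℓ`, `ℓ ∤ L`, and `U_2`). -/
theorem exists_modp_eigenvector (h2L : 2 ∣ L)
    (f : CuspForm (Gamma0 L) 2) (hf : f.IsNormalizedEigenform)
    (𝔪 : Ideal (integralClosure ℤ ℂ)) (hmax : 𝔪.IsMaximal)
    (hpm : (p : integralClosure ℤ ℂ) ∈ 𝔪) :
    ∃ (κ : Type) (_ : Field κ) (_ : CharP κ p) (φ : ↥(integralClosure ℤ ℂ) →+* κ)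
      (w : κ ⊗[ℤ] ↥(Lam L)),
      (∀ a ∈ 𝔪, φ a = 0) ∧ w ≠ 0 ∧
      (∀ (ℓ : ℕ) (hℓ : ℓ.Prime) (hℓL : ¬ ℓ ∣ L) (b : integralClosure ℤ ℂ),
        (b : ℂ) = qCoeff f ℓ → (dcZ L ℓ hℓ hℓL).baseChange κ w = φ b • w) ∧
      (∀ b : integralClosure ℤ ℂ, (b : ℂ) = qCoeff f 2 →
        (UqPar (q := 2) h2L ℤ ℤ : Module.End ℤ ↥(Lam L)).baseChange κ w = φ b • w) := by
  classical
  -- an eigenvector over `ℂ` for the full Hecke algebra
  obtain ⟨v, hv0, hv⟩ := Fermat.Agent.ES.GAL.EigenExists10.exists_eigenvector_baseChange (K := ℂ)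
    ((heckeLamFull (N := L) (∅ : Set ℕ) : ↥(heckeAlgebra L 2 ∅) →ₐ[ℤ] Module.End ℤ ↥(Lam L)) :
      ↥(heckeAlgebra L 2 ∅) →+* Module.End ℤ ↥(Lam L))
    (heckeLamFull_injective ∅) (Fermat.Agent.ES.J7.EigenChar1.chiC hf ∅)
  -- a valuation subring of `ℂ` dominating `(ℤ̄, 𝔪)`
  let A : Subring ℂ := (integralClosure ℤ ℂ).toSubring
  let I : Ideal ↥A := 𝔪
  have hI : I ≠ ⊤ := hmax.ne_top
  obtain ⟨O, hAO, hIO⟩ := Ideal.image_subset_nonunits_valuationSubring I hI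
  let j : ↥(integralClosure ℤ ℂ) →+* ↥O :=
    { toFun := fun a => ⟨(a : ℂ), hAO a.2⟩
      map_one' := rfl
      map_mul' := fun _ _ => rfl
      map_zero' := rfl
      map_add' := fun _ _ => rfl }
  let φ : ↥(integralClosure ℤ ℂ) →+* IsLocalRing.ResidueField ↥O := (IsLocalRing.residue ↥O).comp j
  have hker : ∀ a : ↥(integralClosure ℤ ℂ), a ∈ 𝔪 → φ a = 0 := by
    intro a ha
    show IsLocalRing.residue ↥O (j a) = 0
    rw [IsLocalRing.residue_eq_zero_iff]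
    have h1 : (a : ℂ) ∈ O.nonunits := hIO ⟨a, ha, rfl⟩
    obtain ⟨h2, h3⟩ := (ValuationSubring.mem_nonunits_iff_exists_mem_maximalIdeal).mp h1
    exact h3
  obtain ⟨w, hw0, hw⟩ := exists_reduction O (IsLocalRing.residue ↥O) v hv0
  refine ⟨IsLocalRing.ResidueField ↥O, inferInstance, ?_, φ, w, hker, hw0, ?_, ?_⟩
  · rw [CharP.charP_iff_prime_eq_zero hp.out]
    have := hker _ hpm
    rwa [map_natCast] at this
  · intro ℓ hℓ hℓL b hb
    haveI : Fact ℓ.Prime := ⟨hℓ⟩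
    have hℓS : ℓ ∉ (∅ : Set ℕ) := Set.notMem_empty ℓ
    have h1 := hv (heckeAlgebra.T hℓ hℓL hℓS)
    rw [Fermat.Agent.ES.J7.EigenChar1.chiC_T hf hℓ hℓL hℓS, ← hb] at h1
    have h2 : ((heckeLamFull (N := L) (∅ : Set ℕ) : ↥(heckeAlgebra L 2 ∅) →ₐ[ℤ] _) :
        ↥(heckeAlgebra L 2 ∅) →+* Module.End ℤ ↥(Lam L)) (heckeAlgebra.T hℓ hℓL hℓS) =
        dcZ L ℓ hℓ hℓL := heckeLamFull_T ∅ ℓ hℓ hℓL hℓS
    rw [h2] at h1
    exact hw (dcZ L ℓ hℓ hℓL) (j b) h1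
  · intro b hb
    have h2S : 2 ∉ (∅ : Set ℕ) := Set.notMem_empty 2
    have h1 := hv (heckeAlgebra.U Nat.prime_two h2L h2S)
    rw [Fermat.Agent.ES.J7.EigenChar1.chiC_U hf Nat.prime_two h2L h2S, ← hb] at h1
    have h2 : ((heckeLamFull (N := L) (∅ : Set ℕ) : ↥(heckeAlgebra L 2 ∅) →ₐ[ℤ] _) :
        ↥(heckeAlgebra L 2 ∅) →+* Module.End ℤ ↥(Lam L))
          (heckeAlgebra.U Nat.prime_two h2L h2S) = UqPar (q := 2) h2L ℤ ℤ :=
      heckeLamFull_U ∅ 2 Nat.prime_two h2L h2S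
    rw [h2] at h1
    exact hw (UqPar (q := 2) h2L ℤ ℤ) (j b) h1

/-- **The occurrence subgroup of an eigenform is nonzero.** -/
theorem exists_occSub_ne_zero (U : UFamily) (h2L : 2 ∣ L) (hU : KumCompatAt p L U h2L)
    (good : ℕ → Prop) (a : ℕ → ℤ) (hgood : ∀ ℓ, good ℓ → ℓ.Prime ∧ ¬ ℓ ∣ L)
    (f : CuspForm (Gamma0 L) 2) (hf : f.IsNormalizedEigenform)
    (𝔪 : Ideal (integralClosure ℤ ℂ)) (hmax : 𝔪.IsMaximal)
    (hpm : (p : integralClosure ℤ ℂ) ∈ 𝔪)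
    (hcong : ∀ ℓ : ℕ, good ℓ → ∃ b : integralClosure ℤ ℂ, (b : ℂ) = qCoeff f ℓ ∧
      b - ((a ℓ : ℤ) : integralClosure ℤ ℂ) ∈ 𝔪)
    (α : integralClosure ℤ ℂ) (hα : (α : ℂ) = qCoeff f 2) :
    ∃ x ∈ OccSub U L p good a {c | Polynomial.aeval α c ∈ 𝔪}, x ≠ 0 := by
  classical
  obtain ⟨κ, _, _, φ, w, hker, hw0, hwT, hwU⟩ := exists_modp_eigenvector (p := p) h2L f hf 𝔪 hmax hpm
  obtain ⟨y, hy, hyE⟩ := exists_descent p w hw0
  refine ⟨piJ p L y, ?_, fun h0 => hy (piJ_ker p L y h0)⟩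
  rw [mem_occSub]
  refine ⟨?_, ?_, ?_⟩
  · rw [natCast_zsmul]
    exact nsmul_piJ p L y
  · rintro ⟨ℓ, hℓ⟩ hgℓ
    obtain ⟨-, hℓL⟩ := hgood ℓ hgℓ
    obtain ⟨b, hb, hbm⟩ := hcong ℓ hgℓ
    have hφb : φ b = ((a ℓ : ℤ) : κ) := by
      have := hker _ hbm
      rw [map_sub, map_intCast, sub_eq_zero] at this
      exact this
    obtain ⟨z, hz⟩ := hyE (dcZ L ℓ hℓ hℓL - a ℓ • (1 : Module.End ℤ ↥(Lam L)))
      (by rw [baseChange_sub_zsmul, hwT ℓ hℓ hℓL b hb, hφb, sub_self])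
    rw [LinearMap.sub_apply, LinearMap.smul_apply, Module.End.one_apply, sub_eq_iff_eq_add] at hz
    show heckeOperatorBar L ⟨ℓ, hℓ⟩ (piJ p L y) = a ℓ • piJ p L y
    rw [heckeOperatorBar_piJ p L ℓ hℓ hℓL y, hz, map_add, map_nsmul, nsmul_piJ, zero_add, map_zsmul]
  · intro c hc
    have hφc : Polynomial.aeval (φ α) c = 0 := by
      have h1 := hker _ hc
      rw [← h1]
      rw [Polynomial.aeval_def, Polynomial.aeval_def, Polynomial.hom_eval₂]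
      congr 1
      exact Subsingleton.elim _ _
    obtain ⟨z, hz⟩ := hyE (Polynomial.aeval (UqPar (q := 2) h2L ℤ ℤ : Module.End ℤ ↥(Lam L)) c)
      (by rw [baseChange_aeval_of_eigen _ (φ α) w (hwU α hα) c, hφc, zero_smul])
    rw [aeval_intertwine (piJ p L) (UqPar (q := 2) h2L ℤ ℤ : Module.End ℤ ↥(Lam L)) (U L)
      (fun φ' => U_piJ p L U h2L hU φ') c y, hz, map_nsmul, nsmul_piJ]

/-- **the same in the literal shape of `Top68.EMBED44`**: the occurrence subgroup at level `4mp` of a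
form congruent to the Frey curve is nonzero. -/
theorem exists_occSub_frey (U : UFamily) (P : FreyPackage) (m : ℕ) [NeZero (4 * m * P.p)]
    (hU : haveI : Fact P.p.Prime := ⟨P.pp⟩
      KumCompatAt P.p (4 * m * P.p) U ⟨2 * m * P.p, by ring⟩)
    (f : CuspForm (Gamma0 (4 * m * P.p)) 2) (W : WeierstrassCurve ℤ)
    (𝔪 : Ideal (integralClosure ℤ ℂ)) (α : integralClosure ℤ ℂ)
    (hf : f.IsNormalizedEigenform) (hmax : 𝔪.IsMaximal)
    (hpm : (P.p : integralClosure ℤ ℂ) ∈ 𝔪) (hcong : CongFrey P.p W 𝔪 f (4 * m * P.p))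
    (hα : (α : ℂ) = qCoeff f 2) :
    ∃ x ∈ OccSub U (4 * m * P.p) P.p (Good W (4 * m * P.p)) (fun ℓ => W.apOfModel ℓ)
      {c | Polynomial.aeval α c ∈ 𝔪}, x ≠ 0 := by
  haveI : Fact P.p.Prime := ⟨P.pp⟩
  refine exists_occSub_ne_zero (p := P.p) U ⟨2 * m * P.p, by ring⟩ hU (Good W (4 * m * P.p))
    (fun ℓ => W.apOfModel ℓ) (fun ℓ h => ⟨h.1, h.2.2⟩) f hf 𝔪 hmax hpm ?_ α hα
  rintro ℓ ⟨hℓ, hgood, hℓL⟩
  refine hcong ℓ hℓ hgood hℓL ?_
  rintro rfl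
  exact hℓL (dvd_mul_left _ _)

end Occurrence

end Fermat.Agent.T1B.Embed6
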