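/-
T1B / EMBED44, Kummer half (i), INSTANCE at the chain's `U`-family `Degen21.UFam.uTwo` (helper78, on top of
helper6's `Embed6/Occ`): the Kummer compatibility `KumCompatAt p L uTwo h2L` is `KumU78.kumUq_uTwo`, so
the occurrence subgroup of an eigenform is nonzero UNCONDITIONALLY for `U := uTwo`.
-/
import Fermat.Agent.T1B.Embed6.Occ
import Fermat.Agent.T1B.KumU78.KumUq

set_option autoImplicit false
set_option linter.style.haveILetI false
set_option linter.unusedSectionVars false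

noncomputable section

namespace Fermat.Agent.T1B.Embed6

open CongruenceSubgroup CuspForm ModularCurve ModularFormClass
open Fermat.Agent.T1B.Top68 Fermat.Agent.T1B.Degen21.UFam

/-- `uTwo` satisfies the Kummer compatibility at every even level and every prime `p`. -/
theorem kumCompatAt_uTwo (p : ℕ) [hp : Fact p.Prime] (L : ℕ) [NeZero L] (h2L : 2 ∣ L) :
    KumCompatAt p L uTwo h2L :=
  fun k x hfx => Fermat.Agent.T1B.KumU78.kumUq_uTwo p L h2L k x hfx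

/-- **The occurrence subgroup (for `U := uTwo`) of an eigenform of even level is nonzero.** -/
theorem exists_occSub_uTwo_ne_zero {p : ℕ} [hp : Fact p.Prime] {L : ℕ} [NeZero L] (h2L : 2 ∣ L)
    (good : ℕ → Prop) (a : ℕ → ℤ) (hgood : ∀ ℓ, good ℓ → ℓ.Prime ∧ ¬ ℓ ∣ L)
    (f : CuspForm (Gamma0 L) 2) (hf : f.IsNormalizedEigenform)
    (𝔪 : Ideal (integralClosure ℤ ℂ)) (hmax : 𝔪.IsMaximal)
    (hpm : (p : integralClosure ℤ ℂ) ∈ 𝔪)
    (hcong : ∀ ℓ : ℕ, good ℓ → ∃ b : integralClosure ℤ ℂ, (b : ℂ) = qCoeff f ℓ ∧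
      b - ((a ℓ : ℤ) : integralClosure ℤ ℂ) ∈ 𝔪)
    (α : integralClosure ℤ ℂ) (hα : (α : ℂ) = qCoeff f 2) :
    ∃ x ∈ OccSub uTwo L p good a {c | Polynomial.aeval α c ∈ 𝔪}, x ≠ 0 :=
  exists_occSub_ne_zero uTwo h2L (kumCompatAt_uTwo p L h2L) good a hgood f hf 𝔪 hmax hpm hcong α hα

/-- **the same in the literal shape of `Top68.EMBED44`**, for `U := uTwo`. -/
theorem exists_occSub_frey_uTwo (P : FreyPackage) (m : ℕ) [NeZero (4 * m * P.p)]
    (f : CuspForm (Gamma0 (4 * m * P.p)) 2) (W : WeierstrassCurve ℤ)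
    (𝔪 : Ideal (integralClosure ℤ ℂ)) (α : integralClosure ℤ ℂ)
    (hf : f.IsNormalizedEigenform) (hmax : 𝔪.IsMaximal)
    (hpm : (P.p : integralClosure ℤ ℂ) ∈ 𝔪) (hcong : CongFrey P.p W 𝔪 f (4 * m * P.p))
    (hα : (α : ℂ) = qCoeff f 2) :
    ∃ x ∈ OccSub uTwo (4 * m * P.p) P.p (Good W (4 * m * P.p)) (fun ℓ => W.apOfModel ℓ)
      {c | Polynomial.aeval α c ∈ 𝔪}, x ≠ 0 := by
  haveI : Fact P.p.Prime := ⟨P.pp⟩
  exact exists_occSub_frey uTwo P m (kumCompatAt_uTwo P.p (4 * m * P.p) ⟨2 * m * P.p, by ring⟩)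
    f W 𝔪 α hf hmax hpm hcong hα

end Fermat.Agent.T1B.Embed6
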